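/-
Project S36 (Carayol), cell [M2], leaf [ROOT-INST] (helper24), part 3: THE (root) PROPERTY ON THE
LEGENDRE TOWER, closed terms in the context [LEG-CTX] of `S36/Ins1/LegB.lean`.

`m` invertible in the residue field of `O`:
* `s36rt_leg_E M`   : (root) at the Gauss valuation of `lg_E L M`, every level `M`
  (`M = N' q`: `VF = ssm_gl_V1`; `M = N' q q`: `VA = s36i_VA`);
* `s36rt_leg_VF`, `s36rt_leg_VV` (`= ssm_gl_V2 = W₁(VF)`), `s36rt_leg_VA`, `s36rt_leg_VB`
  (`= s36i_VB = W₂(VA)`), `s36rt_leg_RG` (Gauss valuation of `β E₁`);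
* `s36rt_leg_VC` : (root) at ANY valuation subring `VC` of `E₂ = lg_E L (N' q q)` lying over `VF`
  with residue degree one (`hres`: every element of `VC` is congruent modulo `𝔪(VC)` to an element
  of `E₁`; = the output (res) of [VAL3-V]).
All statements unfold to the hypothesis `hroot` of `s36a_abel3` (`s36rt_Root` is a `def`: use
`fun y hy c hc h => s36rt_leg_VA … y hy c hc h` or `unfold`).
Prefix `s36rt_`.
-/
import Mathlib
import Fermat.Agent.S36.Ins1.LegB
import Fermat.Agent.S36.Root.Gauss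

set_option autoImplicit false
set_option linter.unusedSectionVars false
set_option linter.unusedVariables false
set_option linter.style.haveILetI false

noncomputable section

open ModularCurve IntermediateField IsLocalRing
open Fermat.Agent.JT3 Fermat.Agent.SS Fermat.Agent.S35

namespace Fermat.Agent.S36

section Legendre

variable {L : Type*} [Field L] [CharZero L] [Algebra L (AlgebraicClosure ℚ)]
  (O : ValuationSubring L) [IsDiscreteValuationRing O] {π : O} (hπ : Irreducible π)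
variable (N' q : ℕ) [NeZero N'] [NeZero q] [hq : Fact q.Prime] [CharP (ResidueField O) q]
  (hq2 : ¬ 2 ∣ q) (hqN' : ¬ q ∣ N')
variable (m : ℕ) (hm : (m : ResidueField O) ≠ 0)

include hm

/-- **(root) at the Gauss valuation of `lg_E L M`**, every level. -/
theorem s36rt_leg_E (M : ℕ) [NeZero M] :
    s36rt_Root O (gq_valSubOf π hπ.ne_zero hπ.maximalIdeal_eq (lg_E L M)
      (ssm_ga_E_le_quotField O M)) m :=
  s36rt_gauss O hπ (lg_E L M) (ssm_ga_E_le_quotField O M) m hm

/-- (root) at `VF`, the Gauss valuation of `E₁ = lg_E L (N' q)`. -/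
theorem s36rt_leg_VF : s36rt_Root O (ssm_gl_V1 O hπ N' q) m :=
  s36rt_leg_E O hπ m hm (N' * q)

/-- (root) at `VV = W₁(VF)`. -/
theorem s36rt_leg_VV : s36rt_Root O (ssm_gl_V2 O hπ N' q hq2 hqN') m :=
  s36rt_root_comap O (ssm_gl_V1 O hπ N' q) m (ssm_gl_W L N' q hq2 hqN')
    (fun c => (ssm_al_WE L N' q hq.out hq2 hqN').commutes c) (s36rt_leg_VF O hπ N' q m hm)

/-- (root) at `VA`, the Gauss valuation of `E₂ = lg_E L (N' q q)`. -/
theorem s36rt_leg_VA : s36rt_Root O (s36i_VA O hπ (N' * q) q) m :=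
  s36rt_leg_E O hπ m hm (N' * q * q)

/-- (root) at `VB = W₂(VA)`. -/
theorem s36rt_leg_VB : s36rt_Root O (s36i_VB O hπ N' q hq2 hqN') m :=
  s36rt_root_comap O (s36i_VA O hπ (N' * q) q) m (s36i_W2 L N' q hq2 hqN')
    (fun c => (s36w_WE L N' q hq.out hq2 hqN').commutes c) (s36rt_leg_VA O hπ N' q m hm)

/-- (root) at the Gauss valuation of `β E₁ = (lg_E L (N' q))(X^q)`. -/
theorem s36rt_leg_RG : s36rt_Root O (s36i_RG O hπ (N' * q) q hq2) m :=
  s36rt_gauss O hπ _ _ m hm

/-- **(root) at `VC`**: any valuation subring of `E₂` over `VF` of residue degree one. -/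
theorem s36rt_leg_VC (VC : ValuationSubring ↥(lg_E L (N' * q * q)))
    (hVC : ∀ z : ↥(lg_E L (N' * q)),
      IntermediateField.inclusion (s36w_E_le1 L N' q) z ∈ VC ↔ z ∈ ssm_gl_V1 O hπ N' q)
    (hres : ∀ a ∈ VC, ∃ r : ↥(lg_E L (N' * q)),
      a - IntermediateField.inclusion (s36w_E_le1 L N' q) r ∈ VC.nonunits) :
    s36rt_Root O VC m := by
  letI : Algebra ↥(lg_E L (N' * q)) ↥(lg_E L (N' * q * q)) :=
    (IntermediateField.inclusion (s36w_E_le1 L N' q)).toRingHom.toAlgebra
  haveI : IsScalarTower L ↥(lg_E L (N' * q)) ↥(lg_E L (N' * q * q)) :=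
    IsScalarTower.of_algebraMap_eq fun c => rfl
  exact s36rt_root_of_res O (ssm_gl_V1 O hπ N' q) VC m hVC hres (s36rt_leg_VF O hπ N' q m hm)

end Legendre

end Fermat.Agent.S36
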