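/-
Project S36 (Carayol), cell [M2], leaf [ROOT-INST] (helper24), part 2: THE (root) PROPERTY AT THE
GAUSS VALUATION of any field `E' ≤ gq_quotField O L ⊆ L((X))` of Gauss-bounded quotients
(`E' = lg_E L M`, `hs_E L h3 M`: every level, Legendre and Hesse).

`O` a discrete valuation ring of `L` with residue field `k`, `V'` the Gauss valuation ring of `E'`
(`gq_valSubOf` = `s35kp_V`), `m` invertible in `k`.  The reduction `V' → k((X))`
(`s35kp_redHom`, helper13) has kernel `𝔪(V')` and maps constants to constants; an `m`-th root of a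
nonzero constant in `k((X))` is a constant (`s36a_laurent_root`, helper1).  Hence:

* `s36rt_gauss` : `s36rt_Root O V' m`, i.e. VERBATIM the hypothesis `hroot` of `s36a_abel3` at
  `V := V'`:  `∀ y, V'.valuation y = 1 → ∀ c : L, O.valuation c = 1 →
  y ^ m - algebraMap L E' c ∈ V'.nonunits → ∃ u : L, O.valuation u = 1 ∧
  y - algebraMap L E' u ∈ V'.nonunits`.
Prefix `s36rt_`.
-/
import Mathlib
import Fermat.Agent.S35.Kappa.Defs
import Fermat.Agent.S36.Abel3.LaurentRoot
import Fermat.Agent.S36.Root.Transport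

set_option autoImplicit false
set_option linter.unusedSectionVars false
set_option linter.style.haveILetI false

namespace Fermat.Agent.S36

open ModularCurve IsLocalRing Fermat.Agent.JT3 Fermat.Agent.S35

variable {L : Type*} [Field L] (O : ValuationSubring L) [IsDiscreteValuationRing O] {π : O}
  (hπ : Irreducible π)
  (E' : IntermediateField L (LaurentSeries L)) (hE' : E' ≤ gq_quotField O L)

/-- the constants of `O` lie in the Gauss ring (no instance search) -/
theorem s36rt_const_mem (c : O) : algebraMap L ↥E' (c : L) ∈ s35kp_V O hπ E' hE' := by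
  change gq_IsBdd O L (algebraMap L (LaurentSeries L) (algebraMap O L c))
  rw [← gq_coeffMap_algebraMap]
  exact gq_isBdd_iota _

/-- **(root) at the Gauss valuation.** -/
theorem s36rt_gauss (m : ℕ) (hm : (m : ResidueField O) ≠ 0) :
    s36rt_Root O (s35kp_V O hπ E' hE') m := by
  rw [s36rt_root_iff]
  intro y hy hyn c hc hcn hyc
  set V' := s35kp_V O hπ E' hE' with hV'
  set red := s35kp_redHom O hπ E' hE' with hred
  -- the constant `c` as an element of `V'`
  have hcV : algebraMap L ↥E' c ∈ V' := s36rt_const_mem O hπ E' hE' (⟨c, hc⟩ : O)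
  have h1 : red (⟨y, hy⟩ ^ m - ⟨algebraMap L ↥E' c, hcV⟩) = 0 := by
    rw [hred, s35kp_redHom_eq_zero_iff]
    exact hyc
  have hconst : red ⟨algebraMap L ↥E' c, hcV⟩ =
      algebraMap (ResidueField O) (LaurentSeries (ResidueField O)) (residue O (⟨c, hc⟩ : O)) :=
    s35kp_redHom_const O hπ E' hE' (⟨c, hc⟩ : O)
  have hres0 : residue O (⟨c, hc⟩ : O) ≠ 0 := by
    intro h0
    rw [residue_eq_zero_iff] at h0
    exact hcn ((ValuationSubring.coe_mem_nonunits_iff (A := O) (a := ⟨c, hc⟩)).2 h0)
  have h2 : red ⟨y, hy⟩ ^ m = HahnSeries.C (residue O (⟨c, hc⟩ : O)) := by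
    rw [map_sub, map_pow, sub_eq_zero] at h1
    rw [h1, hconst, gq_algebraMap_eq_single]
    rfl
  obtain ⟨ubar, hubar0, -, hyu⟩ := s36a_laurent_root m hm (red ⟨y, hy⟩) _ hres0 h2
  obtain ⟨u, hu⟩ := residue_surjective (R := O) ubar
  have huV : algebraMap L ↥E' (u : L) ∈ V' := s36rt_const_mem O hπ E' hE' u
  refine ⟨(u : L), u.2, fun hun => ?_, ?_⟩
  · apply hubar0
    rw [← hu, residue_eq_zero_iff]
    exact (ValuationSubring.coe_mem_nonunits_iff (A := O) (a := u)).1 hun
  · have h3 : red (⟨y, hy⟩ - ⟨algebraMap L ↥E' (u : L), huV⟩) = 0 := by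
      rw [map_sub, hyu, hred, s35kp_redHom_const O hπ E' hE' u, hu, sub_eq_zero,
        gq_algebraMap_eq_single]
      rfl
    rw [hred, s35kp_redHom_eq_zero_iff] at h3
    exact h3

/-- **(root) at the Gauss valuation**, in the spelling of `hroot` of `s36a_abel3`. -/
theorem s36rt_gauss' (m : ℕ) (hm : (m : ResidueField O) ≠ 0) :
    ∀ y : ↥E', (gq_valSubOf π hπ.ne_zero hπ.maximalIdeal_eq E' hE').valuation y = 1 →
      ∀ c : L, O.valuation c = 1 →
        y ^ m - algebraMap L ↥E' c ∈ (gq_valSubOf π hπ.ne_zero hπ.maximalIdeal_eq E' hE').nonunits →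
          ∃ u : L, O.valuation u = 1 ∧
            y - algebraMap L ↥E' u ∈ (gq_valSubOf π hπ.ne_zero hπ.maximalIdeal_eq E' hE').nonunits :=
  s36rt_gauss O hπ E' hE' m hm

/-- `m` is invertible in the residue field as soon as it is a unit of `O` -/
theorem s36rt_natCast_ne_zero {m : ℕ} (hm : IsUnit (m : O)) : (m : ResidueField O) ≠ 0 := by
  have h1 : residue O (m : O) ≠ 0 := by
    intro h0
    rw [residue_eq_zero_iff] at h0
    exact (IsLocalRing.mem_maximalIdeal _).1 h0 hm
  rwa [map_natCast] at h1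

end Fermat.Agent.S36
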