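/-
Project S36 (Carayol), cell [M2], leaf [ROOT-INST] (helper24), part 4: THE (root) PROPERTY ON THE
HESSE TOWER (twin of `S36/Root/Leg.lean`), context [HES-CTX] of `SS/Model/FactsHesse.lean`.

`m` invertible in the residue field of `O`:
* `s36rt_hes_E M` : (root) at the Gauss valuation of `hs_E L h3 M`, every level `M`;
* `s36rt_hes_VF` (`= ssm_fh_V1`), `s36rt_hes_VV` (`= ssm_fh_V2 = W₁(VF)`), `s36rt_hes_VA`
  (Gauss valuation of `hs_E L h3 (N' q q)`), `s36rt_hes_VB` (`= W₂(VA)`, `W₂ = s36w_h_WE`);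
* `s36rt_hes_VC` : (root) at any valuation subring of `hs_E L h3 (N' q q)` over `VF` of residue
  degree one.
Prefix `s36rt_`.
-/
import Mathlib
import Fermat.Agent.SS.Model.FactsHesse
import Fermat.Agent.S36.AL2.CoverHesse
import Fermat.Agent.S36.Root.Gauss

set_option autoImplicit false
set_option linter.unusedSectionVars false
set_option linter.unusedVariables false
set_option linter.style.haveILetI false

noncomputable section

open ModularCurve IntermediateField IsLocalRing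
open Fermat.Agent.JT3 Fermat.Agent.SS Fermat.Agent.S35

namespace Fermat.Agent.S36

section Hesse

variable {L : Type*} [Field L] [CharZero L] [Algebra L (AlgebraicClosure ℚ)] (h3 : (3 : L) ≠ 0)
  (O : ValuationSubring L) [IsDiscreteValuationRing O] (h3O : IsUnit (3 : O)) {π : O}
  (hπ : Irreducible π)
variable (N' q : ℕ) [NeZero N'] [NeZero q] [hq : Fact q.Prime] [CharP (ResidueField O) q]
  (hq3 : ¬ 3 ∣ q) (hqN' : ¬ q ∣ N')
variable (m : ℕ) (hm : (m : ResidueField O) ≠ 0)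

include hm

/-- **(root) at the Gauss valuation of `hs_E L h3 M`**, every level. -/
theorem s36rt_hes_E (M : ℕ) [NeZero M] :
    s36rt_Root O (gq_valSubOf π hπ.ne_zero hπ.maximalIdeal_eq (hs_E L h3 M)
      (hsa_E_le_quotField h3 O M h3O)) m :=
  s36rt_gauss O hπ (hs_E L h3 M) (hsa_E_le_quotField h3 O M h3O) m hm

/-- (root) at `VF`, the Gauss valuation of `hs_E L h3 (N' q)`. -/
theorem s36rt_hes_VF : s36rt_Root O (ssm_fh_V1 h3 O h3O hπ N' q) m :=
  s36rt_hes_E h3 O h3O hπ m hm (N' * q)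

/-- (root) at `VV = W₁(VF)`. -/
theorem s36rt_hes_VV : s36rt_Root O (ssm_fh_V2 h3 O h3O hπ N' q hq3 hqN') m :=
  s36rt_root_comap O (ssm_fh_V1 h3 O h3O hπ N' q) m (ssm_fh_W h3 N' q hq3 hqN')
    (fun c => (ssm_alh_WE L h3 (ssm_fh_hF9 h3) N' q hq.out hq3 hqN').commutes c)
    (s36rt_hes_VF h3 O h3O hπ N' q m hm)

/-- (root) at `VA`, the Gauss valuation of `hs_E L h3 (N' q q)`. -/
theorem s36rt_hes_VA :
    s36rt_Root O (gq_valSubOf π hπ.ne_zero hπ.maximalIdeal_eq (hs_E L h3 (N' * q * q))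
      (hsa_E_le_quotField h3 O (N' * q * q) h3O)) m :=
  s36rt_hes_E h3 O h3O hπ m hm (N' * q * q)

/-- (root) at `VB = W₂(VA)`. -/
theorem s36rt_hes_VB :
    s36rt_Root O ((gq_valSubOf π hπ.ne_zero hπ.maximalIdeal_eq (hs_E L h3 (N' * q * q))
      (hsa_E_le_quotField h3 O (N' * q * q) h3O)).comap
        ((s36w_h_WE L h3 (ssm_fh_hF9 h3) N' q hq.out hq3 hqN').toRingEquiv :
          ↥(hs_E L h3 (N' * q * q)) →+* ↥(hs_E L h3 (N' * q * q)))) m :=
  s36rt_root_comap O _ m (s36w_h_WE L h3 (ssm_fh_hF9 h3) N' q hq.out hq3 hqN').toRingEquiv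
    (fun c => (s36w_h_WE L h3 (ssm_fh_hF9 h3) N' q hq.out hq3 hqN').commutes c)
    (s36rt_hes_VA h3 O h3O hπ N' q m hm)

/-- **(root) at `VC`**: any valuation subring of `hs_E L h3 (N' q q)` over `VF` of residue degree
one. -/
theorem s36rt_hes_VC (VC : ValuationSubring ↥(hs_E L h3 (N' * q * q)))
    (hVC : ∀ z : ↥(hs_E L h3 (N' * q)),
      IntermediateField.inclusion (s36w_h_E_le1 L h3 (ssm_fh_hF9 h3) N' q) z ∈ VC ↔
        z ∈ ssm_fh_V1 h3 O h3O hπ N' q)
    (hres : ∀ a ∈ VC, ∃ r : ↥(hs_E L h3 (N' * q)),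
      a - IntermediateField.inclusion (s36w_h_E_le1 L h3 (ssm_fh_hF9 h3) N' q) r ∈ VC.nonunits) :
    s36rt_Root O VC m := by
  letI : Algebra ↥(hs_E L h3 (N' * q)) ↥(hs_E L h3 (N' * q * q)) :=
    (IntermediateField.inclusion (s36w_h_E_le1 L h3 (ssm_fh_hF9 h3) N' q)).toRingHom.toAlgebra
  haveI : IsScalarTower L ↥(hs_E L h3 (N' * q)) ↥(hs_E L h3 (N' * q * q)) :=
    IsScalarTower.of_algebraMap_eq fun c => rfl
  exact s36rt_root_of_res O (ssm_fh_V1 h3 O h3O hπ N' q) VC m hVC hres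
    (s36rt_hes_VF h3 O h3O hπ N' q m hm)

end Hesse

end Fermat.Agent.S36
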