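/-
Project S36 (Carayol), cell [M2], leaf [ROOT-INST] (helper24), part 1: THE (root) PROPERTY AND ITS
TRANSPORT (Mathlib only).

`L ⊆ E` fields, `O` a valuation subring of `L`, `V` a valuation subring of `E`.
`s36rt_Root O V m` : every unit `y` of `V` with `y ^ m ≡ c mod 𝔪(V)`, `c` a unit of `O`, is
congruent to a unit `u` of `O` modulo `𝔪(V)` (= the hypothesis `hroot` of `s36a_abel3`, VERBATIM:
"the residue field of `V` contains no new `m`-th root of a constant").

* `s36rt_root_comap`   : transport along an automorphism of `E` fixing the constants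
  (`VB = VA.comap W₂`);
* `s36rt_root_of_res`  : transport along an extension `K ⊆ E` of residue degree one
  (`V ∩ K = V₀` and every element of `V` is congruent to an element of `K` modulo `𝔪(V)`):
  (root) at `V₀` gives (root) at `V` (`VC | VF`, `VA | VF`);
* `s36rt_root_restrict` : (root) at `V` gives (root) at `V ∩ K`.
Prefix `s36rt_`.
-/
import Mathlib

set_option autoImplicit false
set_option linter.unusedSectionVars false

namespace Fermat.Agent.S36

section Defs

variable {L E : Type*} [Field L] [Field E] [Algebra L E]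

/-- **the (root) property** of `V` over the constants `(L, O)`, exponent `m`. -/
def s36rt_Root (O : ValuationSubring L) (V : ValuationSubring E) (m : ℕ) : Prop :=
  ∀ y : E, V.valuation y = 1 → ∀ c : L, O.valuation c = 1 →
    y ^ m - algebraMap L E c ∈ V.nonunits →
      ∃ u : L, O.valuation u = 1 ∧ y - algebraMap L E u ∈ V.nonunits

/-- `V.valuation y = 1` iff `y` is a unit of `V` (membership spelling) -/
theorem s36rt_val_one_iff {F : Type*} [Field F] (V : ValuationSubring F) (y : F) :
    V.valuation y = 1 ↔ y ∈ V ∧ y ∉ V.nonunits := by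
  rw [V.mem_nonunits_iff, ← V.valuation_le_one_iff, not_lt]
  exact ⟨fun h => ⟨h.le, h.ge⟩, fun h => le_antisymm h.1 h.2⟩

/-- the (root) property in membership spelling -/
theorem s36rt_root_iff (O : ValuationSubring L) (V : ValuationSubring E) (m : ℕ) :
    s36rt_Root O V m ↔ ∀ y : E, y ∈ V → y ∉ V.nonunits → ∀ c : L, c ∈ O → c ∉ O.nonunits →
      y ^ m - algebraMap L E c ∈ V.nonunits →
        ∃ u : L, u ∈ O ∧ u ∉ O.nonunits ∧ y - algebraMap L E u ∈ V.nonunits := by
  constructor
  · intro h y hy hyn c hc hcn hyc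
    obtain ⟨u, hu, hyu⟩ := h y ((s36rt_val_one_iff V y).2 ⟨hy, hyn⟩) c
      ((s36rt_val_one_iff O c).2 ⟨hc, hcn⟩) hyc
    obtain ⟨hu1, hu2⟩ := (s36rt_val_one_iff O u).1 hu
    exact ⟨u, hu1, hu2, hyu⟩
  · intro h y hy c hc hyc
    obtain ⟨hy1, hy2⟩ := (s36rt_val_one_iff V y).1 hy
    obtain ⟨hc1, hc2⟩ := (s36rt_val_one_iff O c).1 hc
    obtain ⟨u, hu1, hu2, hyu⟩ := h y hy1 hy2 c hc1 hc2 hyc
    exact ⟨u, (s36rt_val_one_iff O u).2 ⟨hu1, hu2⟩, hyu⟩

theorem s36rt_nonunits_iff {F : Type*} [Field F] (V : ValuationSubring F) (a : F) :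
    a ∈ V.nonunits ↔ a = 0 ∨ a⁻¹ ∉ V := by
  rw [V.mem_nonunits_iff_or]

/-- non-units of the pull-back of a valuation subring along a ring isomorphism -/
theorem s36rt_nonunits_comap (V : ValuationSubring E) (W : E ≃+* E) (a : E) :
    a ∈ (V.comap (W : E →+* E)).nonunits ↔ W a ∈ V.nonunits := by
  rw [s36rt_nonunits_iff, s36rt_nonunits_iff, ValuationSubring.mem_comap]
  change a = 0 ∨ W a⁻¹ ∉ V ↔ _
  rw [map_inv₀, map_eq_zero]

/-- **transport along an automorphism fixing the constants.** -/
theorem s36rt_root_comap (O : ValuationSubring L) (V : ValuationSubring E) (m : ℕ) (W : E ≃+* E)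
    (hW : ∀ c : L, W (algebraMap L E c) = algebraMap L E c) (h : s36rt_Root O V m) :
    s36rt_Root O (V.comap (W : E →+* E)) m := by
  rw [s36rt_root_iff] at h ⊢
  intro y hy hyn c hc hcn hyc
  have hy' : W y ∈ V := hy
  have hyn' : W y ∉ V.nonunits := fun h' => hyn ((s36rt_nonunits_comap V W y).2 h')
  have hyc' : W y ^ m - algebraMap L E c ∈ V.nonunits := by
    have := (s36rt_nonunits_comap V W _).1 hyc
    rwa [map_sub, map_pow, hW] at this
  obtain ⟨u, hu1, hu2, hyu⟩ := h (W y) hy' hyn' c hc hcn hyc'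
  refine ⟨u, hu1, hu2, (s36rt_nonunits_comap V W _).2 ?_⟩
  rwa [map_sub, hW]

end Defs

section Tower

variable {L K E : Type*} [Field L] [Field K] [Field E] [Algebra L K] [Algebra K E] [Algebra L E]
  [IsScalarTower L K E]

/-- the non-units of `V ∩ K` -/
theorem s36rt_nonunits_restrict (V0 : ValuationSubring K) (V : ValuationSubring E)
    (hV : ∀ z : K, algebraMap K E z ∈ V ↔ z ∈ V0) (z : K) :
    algebraMap K E z ∈ V.nonunits ↔ z ∈ V0.nonunits := by
  rw [s36rt_nonunits_iff, s36rt_nonunits_iff, map_eq_zero, ← map_inv₀, hV]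

/-- **transport along an extension of residue degree one.** -/
theorem s36rt_root_of_res (O : ValuationSubring L) (V0 : ValuationSubring K)
    (V : ValuationSubring E) (m : ℕ)
    (hV : ∀ z : K, algebraMap K E z ∈ V ↔ z ∈ V0)
    (hres : ∀ a ∈ V, ∃ r : K, a - algebraMap K E r ∈ V.nonunits)
    (h : s36rt_Root O V0 m) : s36rt_Root O V m := by
  rw [s36rt_root_iff] at h ⊢
  intro y hy hyn c hc hcn hyc
  obtain ⟨r, hr⟩ := hres y hy
  have hrV : algebraMap K E r ∈ V := by
    have h1 : algebraMap K E r = y - (y - algebraMap K E r) := by ring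
    rw [h1]
    exact V.toSubring.sub_mem hy (V.nonunits_subset hr)
  have hr0 : r ∈ V0 := (hV r).1 hrV
  have hrn : r ∉ V0.nonunits := by
    intro h1
    have h2 := (s36rt_nonunits_restrict V0 V hV r).2 h1
    apply hyn
    have h3 : y = (y - algebraMap K E r) + algebraMap K E r := by ring
    rw [h3, V.mem_nonunits_iff]
    exact lt_of_le_of_lt (V.valuation.map_add _ _)
      (max_lt (V.mem_nonunits_iff.1 hr) (V.mem_nonunits_iff.1 h2))
  -- `r ^ m ≡ y ^ m ≡ c`
  have hsub : algebraMap K E r ^ m - y ^ m ∈ V.nonunits := by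
    have hg := (Commute.all (algebraMap K E r) y).geom_sum₂_mul m
    have hkV : (∑ i ∈ Finset.range m, algebraMap K E r ^ i * y ^ (m - 1 - i)) ∈ V :=
      V.toSubring.sum_mem fun i _ => V.mul_mem _ _ (V.pow_mem hrV _) (V.pow_mem hy _)
    rw [← hg, V.mem_nonunits_iff, map_mul]
    have h1 : V.valuation (algebraMap K E r - y) < 1 := by
      have : algebraMap K E r - y = -(y - algebraMap K E r) := by ring
      rw [this, Valuation.map_neg]
      exact V.mem_nonunits_iff.1 hr
    rw [mul_comm]
    exact mul_lt_one_of_nonneg_of_lt_one_left zero_le h1 ((V.valuation_le_one_iff _).2 hkV)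
  have hrc : r ^ m - algebraMap L K c ∈ V0.nonunits := by
    rw [← s36rt_nonunits_restrict V0 V hV, map_sub, map_pow,
      ← IsScalarTower.algebraMap_apply L K E]
    have h1 : algebraMap K E r ^ m - algebraMap L E c =
        (algebraMap K E r ^ m - y ^ m) + (y ^ m - algebraMap L E c) := by ring
    rw [h1, V.mem_nonunits_iff]
    exact lt_of_le_of_lt (V.valuation.map_add _ _)
      (max_lt (V.mem_nonunits_iff.1 hsub) (V.mem_nonunits_iff.1 hyc))
  obtain ⟨u, hu1, hu2, hru⟩ := h r hr0 hrn c hc hcn hrc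
  refine ⟨u, hu1, hu2, ?_⟩
  have h2 : algebraMap K E (r - algebraMap L K u) ∈ V.nonunits :=
    (s36rt_nonunits_restrict V0 V hV _).2 hru
  rw [map_sub, ← IsScalarTower.algebraMap_apply L K E] at h2
  have h3 : y - algebraMap L E u =
      (y - algebraMap K E r) + (algebraMap K E r - algebraMap L E u) := by ring
  rw [h3, V.mem_nonunits_iff]
  exact lt_of_le_of_lt (V.valuation.map_add _ _)
    (max_lt (V.mem_nonunits_iff.1 hr) (V.mem_nonunits_iff.1 h2))

/-- **restriction**: (root) at `V` gives (root) at `V ∩ K`. -/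
theorem s36rt_root_restrict (O : ValuationSubring L) (V0 : ValuationSubring K)
    (V : ValuationSubring E) (m : ℕ)
    (hV : ∀ z : K, algebraMap K E z ∈ V ↔ z ∈ V0)
    (h : s36rt_Root O V m) : s36rt_Root O V0 m := by
  rw [s36rt_root_iff] at h ⊢
  intro y hy hyn c hc hcn hyc
  have hyc' : algebraMap K E y ^ m - algebraMap L E c ∈ V.nonunits := by
    have := (s36rt_nonunits_restrict V0 V hV _).2 hyc
    rwa [map_sub, map_pow, ← IsScalarTower.algebraMap_apply L K E] at this
  obtain ⟨u, hu1, hu2, hyu⟩ := h (algebraMap K E y) ((hV y).2 hy)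
    (fun h' => hyn ((s36rt_nonunits_restrict V0 V hV y).1 h')) c hc hcn hyc'
  refine ⟨u, hu1, hu2, (s36rt_nonunits_restrict V0 V hV _).1 ?_⟩
  rwa [map_sub, ← IsScalarTower.algebraMap_apply L K E]

end Tower

end Fermat.Agent.S36
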